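/-
S26, block CURVES (architect helper26), leaf ALG-PT: the point of the normalisation above a point
at which the curve is already regular.  Mathlib only.
-/
import Mathlib

set_option autoImplicit false

universe u

namespace Fermat.Agent.S26.Curves

variable {K B F : Type u} [Field K] [IsAlgClosed K] [CommRing B] [Algebra K B]
  [Algebra.FiniteType K B] [Field F] [Algebra K F]

/-- Elements of `F` integral over the image of `B` have denominators prime to `m₀ = ker e₀`.
(`V := Localization.AtPrime` of the noetherian domain `ψ.range ≅ B ⧸ ker ψ` at the image of `m₀`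
(a maximal ideal, well defined by `hker`); its maximal ideal is generated by the image of `τ`
(`hloc`), `τ ≠ 0`, so `V` is a DVR (`IsDiscreteValuationRing` TFAE for noetherian local domains:
`(IsLocalRing.maximalIdeal V).IsPrincipal`), hence integrally closed in its fraction field `F`.) -/
theorem pt_denominator (ψ : B →ₐ[K] F) (hfrac : ∀ x : F, ∃ a b : B, ψ b ≠ 0 ∧ x = ψ a / ψ b)
    (e₀ : B →ₐ[K] K) (hker : ∀ x, ψ x = 0 → e₀ x = 0) (τ : B) (hτ : ψ τ ≠ 0) (hτ0 : e₀ τ = 0)
    (hloc : ∀ x, e₀ x = 0 → ∃ s y, e₀ s ≠ 0 ∧ ψ (s * x) = ψ (y * τ))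
    (x : F) (hx : IsIntegral ψ.range x) : ∃ s b : B, e₀ s ≠ 0 ∧ ψ s * x = ψ b := by
  classical
  have : IsNoetherianRing B := Algebra.FiniteType.isNoetherianRing K B
  have hsurj : Function.Surjective ψ.rangeRestrict := ψ.rangeRestrict_surjective
  have : IsNoetherianRing ψ.range :=
    isNoetherianRing_of_surjective B ψ.range ψ.rangeRestrict.toRingHom hsurj
  have : IsFractionRing ψ.range F := by
    refine IsFractionRing.of_field _ _ fun z => ?_
    obtain ⟨a, b, -, h⟩ := hfrac z
    exact ⟨ψ.rangeRestrict a, ψ.rangeRestrict b, h⟩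
  let m : Ideal ψ.range := Ideal.map ψ.rangeRestrict (RingHom.ker e₀)
  have hm_mem : ∀ b : B, ψ.rangeRestrict b ∈ m ↔ e₀ b = 0 := by
    intro b
    constructor
    · intro h
      obtain ⟨b', hb', h'⟩ := (Ideal.mem_map_iff_of_surjective _ hsurj).1 h
      have h1 : ψ (b - b') = 0 := by
        rw [map_sub, sub_eq_zero]
        exact (congrArg Subtype.val h').symm
      have h2 := hker _ h1
      rw [map_sub, sub_eq_zero] at h2
      rw [h2]
      exact hb'
    · intro h
      exact Ideal.mem_map_of_mem _ h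
  have hmp : m.IsPrime := by
    have : (RingHom.ker e₀).IsPrime := RingHom.ker_isPrime e₀
    refine Ideal.map_isPrime_of_surjective hsurj ?_
    intro b hb
    have h1 : ψ b = 0 := congrArg Subtype.val hb
    exact hker b h1
  let V := Localization.subalgebra.ofField F m.primeCompl m.primeCompl_le_nonZeroDivisors
  have : IsLocalization.AtPrime V m :=
    Localization.subalgebra.isLocalization_ofField F m.primeCompl m.primeCompl_le_nonZeroDivisors
  have : IsLocalRing V := IsLocalization.AtPrime.isLocalRing V m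
  have : IsNoetherianRing V := IsLocalization.isNoetherianRing m.primeCompl V inferInstance
  have hmax : Ideal.map (algebraMap ψ.range V) m = IsLocalRing.maximalIdeal V :=
    IsLocalization.AtPrime.map_eq_maximalIdeal m V
  have hprin : (IsLocalRing.maximalIdeal V).IsPrincipal := by
    refine ⟨algebraMap ψ.range V (ψ.rangeRestrict τ), ?_⟩
    rw [← hmax]
    apply le_antisymm
    · rw [Ideal.map_le_iff_le_comap]
      intro r hr
      obtain ⟨b, rfl⟩ := hsurj r
      obtain ⟨s, y, hs, hsy⟩ := hloc b ((hm_mem b).1 hr)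
      have hs' : ψ.rangeRestrict s ∈ m.primeCompl := fun h => hs ((hm_mem s).1 h)
      have hu : IsUnit (algebraMap ψ.range V (ψ.rangeRestrict s)) :=
        IsLocalization.map_units V (⟨_, hs'⟩ : m.primeCompl)
      rw [Ideal.mem_comap]
      refine (Ideal.unit_mul_mem_iff_mem _ hu).1 ?_
      have h1 : ψ.rangeRestrict s * ψ.rangeRestrict b = ψ.rangeRestrict y * ψ.rangeRestrict τ := by
        rw [← map_mul, ← map_mul]
        exact Subtype.ext hsy
      rw [← map_mul, h1, map_mul]
      exact Ideal.mul_mem_left _ _ (Submodule.mem_span_singleton_self _)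
    · rw [Submodule.span_singleton_le_iff_mem]
      exact Ideal.mem_map_of_mem _ ((hm_mem τ).2 hτ0)
  have : IsPrincipalIdealRing V :=
    ((tfae_of_isNoetherianRing_of_isLocalRing_of_isDomain V).out 4 0).1 hprin
  have hxV : IsIntegral V x := hx.tower_top
  obtain ⟨y, hy⟩ := IsIntegrallyClosed.isIntegral_iff.1 hxV
  obtain ⟨⟨a, s⟩, h⟩ := IsLocalization.surj m.primeCompl y
  obtain ⟨b, rfl⟩ := hsurj a
  obtain ⟨s₀, hs₀⟩ := hsurj s.1
  refine ⟨s₀, b, fun h0 => s.2 (hs₀ ▸ (hm_mem s₀).2 h0), ?_⟩
  have h2 := congrArg (algebraMap V F) h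
  rw [map_mul, hy] at h2
  have h3 : algebraMap V F (algebraMap ψ.range V s.1) = ψ s₀ := by
    rw [← hs₀]; rfl
  have h4 : algebraMap V F (algebraMap ψ.range V (ψ.rangeRestrict b)) = ψ b := rfl
  simp only at h2
  rw [h3, h4] at h2
  rw [mul_comm, h2]

/-- the value at `x` of the point above `e₀`, as a relation. -/
private theorem pt_val_unique (ψ : B →ₐ[K] F) (e₀ : B →ₐ[K] K) (hker : ∀ x, ψ x = 0 → e₀ x = 0)
    {x : F} {s b s' b' : B} (hs : e₀ s ≠ 0) (hs' : e₀ s' ≠ 0) (h : ψ s * x = ψ b)
    (h' : ψ s' * x = ψ b') : e₀ b / e₀ s = e₀ b' / e₀ s' := by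
  have h1 : ψ (s' * b - s * b') = 0 := by
    rw [map_sub, map_mul, map_mul, ← h, ← h']
    ring
  have h2 := hker _ h1
  rw [map_sub, map_mul, map_mul, sub_eq_zero] at h2
  rw [div_eq_div_iff hs hs']
  linear_combination h2

/-- **ALG-PT.**  (Lying over: `R := integralClosure ψ.range F` is integral over `ψ.range`, take a
maximal ideal `m` of `R` over the image of `ker e₀`; `R ⧸ m` is an algebraic field extension of `K`, so
`K → R ⧸ m` is bijective and gives `e`.  ALTERNATIVELY define `e x := e₀ b / e₀ s` using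
`pt_denominator` and check that it is well defined and a homomorphism.  For the last statement:
`e x = 0`, `ψ s * x = ψ b` (`pt_denominator`) ⇒ `e₀ b = 0` ⇒ `ψ (s' * b) = ψ (y * τ)` (`hloc`).) -/
theorem pt_main (ψ : B →ₐ[K] F) (hfrac : ∀ x : F, ∃ a b : B, ψ b ≠ 0 ∧ x = ψ a / ψ b)
    (e₀ : B →ₐ[K] K) (hker : ∀ x, ψ x = 0 → e₀ x = 0) (τ : B) (hτ : ψ τ ≠ 0) (hτ0 : e₀ τ = 0)
    (hloc : ∀ x, e₀ x = 0 → ∃ s y, e₀ s ≠ 0 ∧ ψ (s * x) = ψ (y * τ)) :
    ∃ e : integralClosure ψ.range F →ₐ[K] K,
      (∀ b : B, e (algebraMap ψ.range _ (ψ.rangeRestrict b)) = e₀ b) ∧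
      ∀ x, e x = 0 → ∃ s y, e s ≠ 0 ∧ s * x = y * algebraMap ψ.range _ (ψ.rangeRestrict τ) := by
  classical
  have hden : ∀ x : integralClosure ψ.range F, ∃ s b : B, e₀ s ≠ 0 ∧ ψ s * (x : F) = ψ b :=
    fun x => pt_denominator ψ hfrac e₀ hker τ hτ hτ0 hloc x.1 x.2
  choose S N hS hSN using hden
  have key : ∀ (x : integralClosure ψ.range F) (s b : B), e₀ s ≠ 0 → ψ s * (x : F) = ψ b →
      e₀ (N x) / e₀ (S x) = e₀ b / e₀ s := fun x s b hs h =>
    pt_val_unique ψ e₀ hker (hS x) hs (hSN x) h
  let e : integralClosure ψ.range F →ₐ[K] K :=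
    { toFun := fun x => e₀ (N x) / e₀ (S x)
      map_one' := by
        rw [key 1 1 1 (by rw [map_one]; exact one_ne_zero) (by rw [map_one, one_mul]; rfl),
          map_one, div_one]
      map_mul' := fun x y => by
        rw [key (x * y) (S x * S y) (N x * N y) (by rw [map_mul]; exact mul_ne_zero (hS x) (hS y))
          (by
            rw [map_mul, map_mul, ← hSN x, ← hSN y]
            show ψ (S x) * ψ (S y) * ((x : F) * (y : F)) = _
            ring), map_mul, map_mul, mul_div_mul_comm]
      map_zero' := by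
        rw [key 0 1 0 (by rw [map_one]; exact one_ne_zero) (by rw [map_one, one_mul, map_zero]; rfl),
          map_zero, zero_div]
      map_add' := fun x y => by
        rw [key (x + y) (S x * S y) (N x * S y + S x * N y)
          (by rw [map_mul]; exact mul_ne_zero (hS x) (hS y))
          (by
            rw [map_mul, map_add, map_mul, map_mul, ← hSN x, ← hSN y]
            show ψ (S x) * ψ (S y) * ((x : F) + (y : F)) = _
            ring), map_mul, map_add, map_mul, map_mul, div_add_div _ _ (hS x) (hS y)]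
      commutes' := fun c => by
        rw [key (algebraMap K _ c) 1 (algebraMap K B c) (by rw [map_one]; exact one_ne_zero)
          (by rw [map_one, one_mul, AlgHom.commutes]; rfl), map_one, div_one, AlgHom.commutes] }
  have he : ∀ (x : integralClosure ψ.range F) (s b : B), e₀ s ≠ 0 → ψ s * (x : F) = ψ b →
      e x = e₀ b / e₀ s := key
  have heB : ∀ b : B, e (algebraMap ψ.range _ (ψ.rangeRestrict b)) = e₀ b := by
    intro b
    rw [he _ 1 b (by rw [map_one]; exact one_ne_zero) (by rw [map_one, one_mul]; rfl), map_one,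
      div_one]
  refine ⟨e, heB, fun x hx => ?_⟩
  have h1 : e₀ (N x) / e₀ (S x) = 0 := hx
  have h2 : e₀ (N x) = 0 := by
    rcases div_eq_zero_iff.1 h1 with h | h
    · exact h
    · exact absurd h (hS x)
  obtain ⟨s', y, hs', hsy⟩ := hloc _ h2
  refine ⟨algebraMap ψ.range _ (ψ.rangeRestrict (s' * S x)),
    algebraMap ψ.range _ (ψ.rangeRestrict y), ?_, ?_⟩
  · rw [heB, map_mul]
    exact mul_ne_zero hs' (hS x)
  · apply Subtype.ext
    show ψ (s' * S x) * (x : F) = ψ y * ψ τ
    rw [map_mul, mul_assoc, hSN x, ← map_mul, hsy, map_mul]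

end Fermat.Agent.S26.Curves
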