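/-
S26, block CURVES (architect helper26), leaf ALG-DU: the integral closure of `K[u]` in a finite
separable extension of `K(u)`.  Mathlib only.
-/
import Mathlib

set_option autoImplicit false

open IntermediateField

namespace Fermat.Agent.S26.Curves

variable {K F : Type*} [Field K] [Field F] [Algebra K F]

/-- `K[u]` is a principal ideal domain for `u` transcendental
(it is isomorphic to `Polynomial K`: `Polynomial.aeval u` is injective with range
`Algebra.adjoin K {u}`, see `Algebra.adjoin_singleton_eq_range_aeval`, `transcendental_iff_injective`;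
transport along the ring isomorphism, e.g. `IsPrincipalIdealRing.of_surjective`). -/
theorem adjoin_isPrincipalIdealRing (u : F) (hu : Transcendental K u) :
    IsPrincipalIdealRing (Algebra.adjoin K {u}) := by
  let u' : Algebra.adjoin K {u} := ⟨u, Algebra.self_mem_adjoin_singleton K u⟩
  refine IsPrincipalIdealRing.of_surjective
    (Polynomial.aeval u' : Polynomial K →ₐ[K] Algebra.adjoin K {u}).toRingHom ?_
  rintro ⟨x, hx⟩
  rw [Algebra.adjoin_singleton_eq_range_aeval] at hx
  obtain ⟨q, rfl⟩ := hx
  refine ⟨q, Subtype.ext ?_⟩
  exact Polynomial.aeval_subalgebra_coe q _ u'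

open scoped IntermediateField.algebraAdjoinAdjoin in
/-- (`IsIntegralClosure.finite`, `integralClosure.isDedekindDomain`,
`integralClosure.isFractionRing_of_finite_extension` with `A := Algebra.adjoin K {u}`,
`K := K⟮u⟯`, `L := F`; the instance `IsFractionRing (Algebra.adjoin K {u}) K⟮u⟯` is in Mathlib
(`IntermediateField.Adjoin.Algebra`).) -/
theorem du_facts (u : F) (hu : Transcendental K u) [FiniteDimensional K⟮u⟯ F]
    [Algebra.IsSeparable K⟮u⟯ F] :
    IsDedekindDomain (integralClosure (Algebra.adjoin K {u}) F) ∧
      IsFractionRing (integralClosure (Algebra.adjoin K {u}) F) F ∧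
      Module.Finite (Algebra.adjoin K {u}) (integralClosure (Algebra.adjoin K {u}) F) := by
  have hpir : IsPrincipalIdealRing (Algebra.adjoin K {u}) := adjoin_isPrincipalIdealRing u hu
  have hfr : IsFractionRing (Algebra.adjoin K {u}) K⟮u⟯ := inferInstance
  have hst : IsScalarTower (Algebra.adjoin K {u}) K⟮u⟯ F := IsScalarTower.of_algebraMap_eq fun _ => rfl
  refine ⟨integralClosure.isDedekindDomain (Algebra.adjoin K {u}) K⟮u⟯ F,
    integralClosure.isFractionRing_of_finite_extension K⟮u⟯ F,
    IsIntegralClosure.finite (Algebra.adjoin K {u}) K⟮u⟯ F _⟩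

end Fermat.Agent.S26.Curves
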