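/-
S26, block CURVES (architect helper26), leaf ALG-OV: overrings of Dedekind domains.  Mathlib only.
-/
import Mathlib

set_option autoImplicit false

namespace Fermat.Agent.S26.Curves

variable {D F : Type*} [CommRing D] [IsDedekindDomain D] [Field F] [Algebra D F]
  [IsFractionRing D F]

/-- `D_p` is a valuation ring of `F`, in elementary form. -/
theorem overring_aux (p : Ideal D) [hp : p.IsPrime] (x : F) :
    (∃ b s : D, s ∉ p ∧ algebraMap D F s * x = algebraMap D F b) ∨
    (∃ a s : D, a ∈ p ∧ s ∉ p ∧ algebraMap D F a * x = algebraMap D F s) := by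
  by_cases hp0 : p = ⊥
  · left
    obtain ⟨b, s, hs, h⟩ := IsFractionRing.div_surjective (A := D) x
    have hs0 : s ≠ 0 := nonZeroDivisors.ne_zero hs
    have hs1 : algebraMap D F s ≠ 0 := by
      rwa [Ne, IsFractionRing.to_map_eq_zero_iff]
    refine ⟨b, s, ?_, ?_⟩
    · rw [hp0]
      simpa using hs0
    · rw [← h]
      field_simp
  let Dp := Localization.AtPrime p
  haveI : IsDiscreteValuationRing Dp :=
    IsLocalization.AtPrime.isDiscreteValuationRing_of_dedekind_domain D hp0 Dp
  have hunit : ∀ y : p.primeCompl, IsUnit (algebraMap D F y) := by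
    intro y
    apply IsUnit.mk0
    rw [Ne, IsFractionRing.to_map_eq_zero_iff]
    intro h0
    exact y.2 (by rw [h0]; exact zero_mem _)
  letI : Algebra Dp F := (IsLocalization.lift (M := p.primeCompl) (S := Dp) hunit).toAlgebra
  haveI : IsScalarTower D Dp F :=
    IsScalarTower.of_algebraMap_eq fun d => (IsLocalization.lift_eq hunit d).symm
  haveI : IsFractionRing Dp F :=
    IsFractionRing.isFractionRing_of_isDomain_of_isLocalization p.primeCompl Dp F
  have key : ∀ y : Dp, ∃ b s : D, s ∉ p ∧
      algebraMap D F s * algebraMap Dp F y = algebraMap D F b := by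
    intro y
    obtain ⟨⟨b, s⟩, h⟩ := IsLocalization.surj p.primeCompl y
    refine ⟨b, s, s.2, ?_⟩
    rw [IsScalarTower.algebraMap_apply D Dp F, IsScalarTower.algebraMap_apply D Dp F b, ← map_mul,
      mul_comm]
    exact congrArg _ h
  rcases ValuationRing.isInteger_or_isInteger Dp x with ⟨y, hy⟩ | ⟨y, hy⟩
  · left
    obtain ⟨b, s, hs, h⟩ := key y
    exact ⟨b, s, hs, by rw [← hy, h]⟩
  · by_cases hx : x = 0
    · left
      exact ⟨0, 1, fun h1 => hp.ne_top ((Ideal.eq_top_iff_one p).2 h1), by simp [hx]⟩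
    obtain ⟨a, s, hs, h⟩ := key y
    rw [hy] at h
    by_cases ha : a ∈ p
    · right
      refine ⟨a, s, ha, hs, ?_⟩
      rw [← h]
      field_simp
    · left
      refine ⟨s, a, ha, ?_⟩
      rw [← h]
      field_simp

/-- The inclusion `D → R`. -/
def overringIncl (R : Subring F) (hDR : ∀ d : D, algebraMap D F d ∈ R) : D →+* R :=
  (algebraMap D F).codRestrict R hDR

theorem overringIncl_apply (R : Subring F) (hDR : ∀ d : D, algebraMap D F d ∈ R) (d : D) :
    overringIncl R hDR d = ⟨algebraMap D F d, hDR d⟩ := rfl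

/-- Let `R` be a subring of `F = Frac D` containing `D`, `m` a maximal ideal of `R`,
`p = m ∩ D`.  Then `R ⊆ D_p`: every `x ∈ R` is `b / s` with `b, s ∈ D`, `s ∉ m`.
(If `v_p x < 0` then `x⁻¹ = a / s` with `a ∈ p`, `s ∈ D \ p`, so `s = a x ∈ m ∩ D = p`.
Use that `Localization.AtPrime p` is a valuation ring (field or DVR), with fraction field `F`.) -/
theorem overring_le_localization (R : Subring F) (hDR : ∀ d : D, algebraMap D F d ∈ R)
    (m : Ideal R) (hm : m.IsMaximal) (x : R) :
    ∃ b s : D, (⟨algebraMap D F s, hDR s⟩ : R) ∉ m ∧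
      (⟨algebraMap D F s, hDR s⟩ : R) * x = ⟨algebraMap D F b, hDR b⟩ := by
  haveI : (m.comap (overringIncl R hDR)).IsPrime := Ideal.comap_isPrime _ _
  rcases overring_aux (m.comap (overringIncl R hDR)) (x : F) with ⟨b, s, hs, h⟩ | ⟨a, s, ha, hs, h⟩
  · exact ⟨b, s, hs, Subtype.ext h⟩
  · exfalso
    apply hs
    rw [Ideal.mem_comap] at ha ⊢
    have h1 : overringIncl R hDR s = overringIncl R hDR a * x := Subtype.ext h.symm
    rw [h1]
    exact m.mul_mem_right _ ha

/-- An overring of a Dedekind domain is integrally closed.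
(`x` integral over `R` is integral over `D_p ⊇ R` for every maximal `m`, hence lies in `D_p`,
i.e. `s x ∈ D ⊆ R` for some `s ∈ D`, `s ∉ m`; so the ideal `{r ∈ R | r x ∈ R}` is not contained in
any maximal ideal.) -/
theorem overring_mem_of_isIntegral (R : Subring F) (hDR : ∀ d : D, algebraMap D F d ∈ R)
    {x : F} (hx : IsIntegral R x) : x ∈ R := by
  let I : Ideal R :=
    { carrier := {r | (r : F) * x ∈ R}
      add_mem' := by
        intro a b ha hb
        show ((a + b : R) : F) * x ∈ R
        rw [Subring.coe_add, add_mul]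
        exact R.add_mem ha hb
      zero_mem' := by
        show ((0 : R) : F) * x ∈ R
        rw [Subring.coe_zero, zero_mul]
        exact R.zero_mem
      smul_mem' := by
        intro c a ha
        show ((c * a : R) : F) * x ∈ R
        rw [Subring.coe_mul, mul_assoc]
        exact R.mul_mem c.2 ha }
  by_cases hI : I = ⊤
  · have h1 : (1 : R) ∈ I := by
      rw [hI]
      exact Submodule.mem_top
    have h2 : ((1 : R) : F) * x ∈ R := h1
    rwa [Subring.coe_one, one_mul] at h2
  exfalso
  obtain ⟨m, hm, hIm⟩ := Ideal.exists_le_maximal I hI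
  haveI : (m.comap (overringIncl R hDR)).IsPrime := Ideal.comap_isPrime _ _
  rcases overring_aux (m.comap (overringIncl R hDR)) x with ⟨b, s, hs, h⟩ | ⟨a, s, ha, hs, h⟩
  · apply hs
    rw [Ideal.mem_comap]
    apply hIm
    show algebraMap D F s * x ∈ R
    rw [h]
    exact hDR b
  · apply hs
    rw [Ideal.mem_comap] at ha ⊢
    obtain ⟨f, hf, hfx⟩ := hx
    have h1 : (Polynomial.scaleRoots f (overringIncl R hDR a)).IsWeaklyEisensteinAt m :=
      Polynomial.scaleRoots.isWeaklyEisensteinAt f ha
    have h2 : Polynomial.IsRoot (Polynomial.scaleRoots f (overringIncl R hDR a))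
        (overringIncl R hDR s) := by
      have h3 := Polynomial.scaleRoots_eval₂_eq_zero (algebraMap R F)
        (s := overringIncl R hDR a) hfx
      have h4 : algebraMap R F (overringIncl R hDR a) * x =
          algebraMap R F (overringIncl R hDR s) := h
      rw [h4, Polynomial.eval₂_at_apply] at h3
      exact (FaithfulSMul.algebraMap_injective R F) (by rw [h3, map_zero])
    have h3 := h1.pow_natDegree_le_of_root_of_monic_mem h2
      ((Polynomial.monic_scaleRoots_iff _).2 hf) _ le_rfl
    exact hm.isPrime.mem_of_pow_mem _ h3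

/-- The local rings of an overring of a Dedekind domain at nonzero maximal ideals have principal
maximal ideals (elementary form).
(`p = m ∩ D ≠ 0`; take `π₀ ∈ D` generating `p D_p`; for `x ∈ m` write `s x = b`
(`overring_le_localization`), then `b ∈ p`, so `s' b = c π₀` with `s' ∈ D \ p`.) -/
theorem overring_exists_uniformizer (R : Subring F) (hDR : ∀ d : D, algebraMap D F d ∈ R)
    (m : Ideal R) (hm : m.IsMaximal) (h0 : m ≠ ⊥) :
    ∃ π ∈ m, π ≠ 0 ∧ ∀ x ∈ m, ∃ s, s ∉ m ∧ ∃ y, s * x = y * π := by
  haveI hp : (m.comap (overringIncl R hDR)).IsPrime := Ideal.comap_isPrime _ _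
  set p := m.comap (overringIncl R hDR) with hpdef
  have hinj : Function.Injective (overringIncl R hDR) := by
    intro a b hab
    exact IsFractionRing.injective D F (congrArg Subtype.val hab)
  -- elements of `m` come from `p`
  have hmp : ∀ x ∈ m, ∃ b s : D, b ∈ p ∧ s ∉ p ∧
      overringIncl R hDR s * x = overringIncl R hDR b := by
    intro x hx
    obtain ⟨b, s, hs, h⟩ := overring_le_localization R hDR m hm x
    refine ⟨b, s, ?_, hs, h⟩
    rw [hpdef, Ideal.mem_comap]
    have h1 : overringIncl R hDR b = overringIncl R hDR s * x := h.symm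
    rw [h1]
    exact m.mul_mem_left _ hx
  have hp0 : p ≠ ⊥ := by
    obtain ⟨x, hx, hx0⟩ := Submodule.exists_mem_ne_zero_of_ne_bot h0
    obtain ⟨b, s, hb, hs, h⟩ := hmp x hx
    intro hbot
    rw [hbot, Ideal.mem_bot] at hb
    rw [hb, map_zero] at h
    rcases mul_eq_zero.1 h with h1 | h1
    · apply hs
      rw [hpdef, Ideal.mem_comap, h1]
      exact zero_mem _
    · exact hx0 h1
  obtain ⟨π₀, hπ1, hπ2⟩ := Ideal.exists_mem_pow_notMem_pow_succ p hp0 hp.ne_top 1
  rw [pow_one] at hπ1
  have hπ0 : π₀ ≠ 0 := by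
    rintro rfl
    exact hπ2 (zero_mem _)
  have hπF : algebraMap D F π₀ ≠ 0 := by
    rwa [Ne, IsFractionRing.to_map_eq_zero_iff]
  have hdiv : ∀ b ∈ p, ∃ s c : D, s ∉ p ∧ s * b = c * π₀ := by
    intro b hb
    rcases overring_aux p (algebraMap D F b / algebraMap D F π₀) with
      ⟨c, s, hs, h⟩ | ⟨a, s, ha, hs, h⟩
    · refine ⟨s, c, hs, IsFractionRing.injective D F ?_⟩
      rw [map_mul, map_mul, ← h]
      field_simp
    · exfalso
      have h1 : s * π₀ = a * b := by
        apply IsFractionRing.injective D F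
        rw [map_mul, map_mul, ← h]
        field_simp
      have h2 : s * π₀ ∈ p ^ (1 + 1) := by
        rw [h1, pow_succ, pow_one]
        exact Ideal.mul_mem_mul ha hb
      rcases Ideal.IsPrime.mul_mem_pow p h2 with h3 | h3
      · exact hs h3
      · exact hπ2 h3
  refine ⟨overringIncl R hDR π₀, hπ1, fun h => hπ0 (hinj (by rw [h, map_zero])), ?_⟩
  intro x hx
  obtain ⟨b, s, hb, hs, h⟩ := hmp x hx
  obtain ⟨s', c, hs', h'⟩ := hdiv b hb
  refine ⟨overringIncl R hDR s' * overringIncl R hDR s, ?_, overringIncl R hDR c, ?_⟩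
  · intro hmem
    rcases hm.isPrime.mem_or_mem hmem with h1 | h1
    · exact hs' h1
    · exact hs h1
  · rw [mul_assoc, h, ← map_mul, h', map_mul]

end Fermat.Agent.S26.Curves
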