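/-
S26, block CURVES (architect helper26), leaf ALG-SEP3: a separating element can be chosen in any
subalgebra generating the field.
-/
import Fermat.Agent.S26.Curves.Alg.Sep.FinSep
import Fermat.Agent.S26.Curves.Alg.Sep.SpanD

set_option autoImplicit false

open IntermediateField

namespace Fermat.Agent.S26.Curves

variable {K F : Type*} [Field K] [Field F] [Algebra K F]

/-- **ALG-SEP.**  (`Ω[F⁄K] = F • D t` by `span_D_of_separable`.  `Ω[F⁄K]` is spanned by the `D b`,
`b ∈ B` (quotient rule + `KaehlerDifferential.span_range_derivation`).  `Ω[F⁄K] ≠ 0`: otherwise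
`F / K` is formally unramified and essentially of finite type, so algebraic, contradicting `ht`.
Hence `D u ≠ 0` for some `u ∈ B`; `D u = c • D t` with `c ≠ 0`, so `D u` spans; apply
`finite_separable_of_span_D` (`Algebra.EssFiniteType K F`: `K⟮t⟯` is essentially of finite type over
`K` and `F` is finite over it).  `u` is
transcendental: an algebraic element lies in `K` (`IsAlgClosed.algebraMap_surjective_of_isIntegral`
style) and `D` kills constants.) -/
theorem exists_separating_mem [IsAlgClosed K] (B : Subalgebra K F)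
    (hfrac : ∀ x : F, ∃ a ∈ B, ∃ b ∈ B, b ≠ 0 ∧ x = a / b)
    (t : F) (ht : Transcendental K t) [FiniteDimensional K⟮t⟯ F] [Algebra.IsSeparable K⟮t⟯ F] :
    ∃ u ∈ B, Transcendental K u ∧ FiniteDimensional K⟮u⟯ F ∧ Algebra.IsSeparable K⟮u⟯ F := by
  have hspan := span_D_of_separable (K := K) t
  -- `F / K` is essentially of finite type
  have hess1 : Algebra.EssFiniteType K K⟮t⟯ :=
    IntermediateField.essFiniteType_iff.2 ⟨{t}, by simp⟩
  have hess : Algebra.EssFiniteType K F := Algebra.EssFiniteType.comp K K⟮t⟯ F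
  -- `D t ≠ 0`
  have hDt : KaehlerDifferential.D K F t ≠ 0 := by
    intro h0
    have htop : (⊤ : Submodule F Ω[F⁄K]) = ⊥ := by
      rw [← hspan, h0]
      simp
    have hsub : Subsingleton Ω[F⁄K] := by
      refine ⟨fun a b => ?_⟩
      have ha : a ∈ (⊥ : Submodule F Ω[F⁄K]) := htop ▸ Submodule.mem_top
      have hb : b ∈ (⊥ : Submodule F Ω[F⁄K]) := htop ▸ Submodule.mem_top
      rw [(Submodule.mem_bot F).1 ha, (Submodule.mem_bot F).1 hb]
    have hunr : Algebra.FormallyUnramified K F := ⟨hsub⟩
    have hfin : Module.Finite K F := Algebra.FormallyUnramified.finite_of_free K F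
    exact ht (Algebra.IsAlgebraic.isAlgebraic t)
  -- some `u ∈ B` has `D u ≠ 0`
  have hex : ∃ u ∈ B, KaehlerDifferential.D K F u ≠ 0 := by
    by_contra hcon
    push Not at hcon
    obtain ⟨a, ha, b, hb, hb0, hab⟩ := hfrac t
    have h1 : t * b = a := by rw [hab, div_mul_cancel₀ _ hb0]
    have h2 := congrArg (KaehlerDifferential.D K F) h1
    rw [Derivation.leibniz, hcon a ha, hcon b hb, smul_zero, zero_add] at h2
    exact hDt ((smul_eq_zero.1 h2).resolve_left hb0)
  obtain ⟨u, huB, hDu⟩ := hex
  have hmem : KaehlerDifferential.D K F u ∈ Submodule.span F {KaehlerDifferential.D K F t} := by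
    rw [hspan]
    exact Submodule.mem_top
  obtain ⟨c, hc⟩ := Submodule.mem_span_singleton.1 hmem
  have hc0 : c ≠ 0 := by
    rintro rfl
    rw [zero_smul] at hc
    exact hDu hc.symm
  have hspanu : Submodule.span F {KaehlerDifferential.D K F u} = ⊤ := by
    rw [eq_top_iff, ← hspan, Submodule.span_singleton_le_iff_mem, Submodule.mem_span_singleton]
    exact ⟨c⁻¹, by rw [← hc, smul_smul, inv_mul_cancel₀ hc0, one_smul]⟩
  obtain ⟨h1, h2⟩ := finite_separable_of_span_D (K := K) u hspanu
  refine ⟨u, huB, ?_, h1, h2⟩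
  intro halg
  have hint : IsIntegral K u := halg.isIntegral
  have hdeg := IsAlgClosed.degree_eq_one_of_irreducible K (minpoly.irreducible hint)
  obtain ⟨x, rfl⟩ := minpoly.mem_range_of_degree_eq_one K u hdeg
  exact hDu (Derivation.map_algebraMap _ x)

end Fermat.Agent.S26.Curves
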