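/-
S26, block CURVES (architect helper26), leaf ALG-FIN2: finiteness of the integral closure and
local uniformizers.
-/
import Fermat.Agent.S26.Curves.Alg.Fin.Span
import Fermat.Agent.S26.Curves.Alg.Sep

set_option autoImplicit false

open IntermediateField

namespace Fermat.Agent.S26.Curves

variable {K F : Type*} [Field K] [IsAlgClosed K] [Field F] [Algebra K F]

/-- **ALG-FIN (i).**  (`u ∈ B` from `exists_separating_mem`; `D = integralClosure K[u] F` is spanned
over `K[u] ⊆ B` by finitely many `d_k` (`du_facts`), so by `integralClosure_eq_span` the integral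
closure of `B` is spanned over `B` by the `d_k`.) -/
theorem fin_finite (B : Subalgebra K F)
    (hfrac : ∀ x : F, ∃ a ∈ B, ∃ b ∈ B, b ≠ 0 ∧ x = a / b)
    (t : F) (ht : Transcendental K t) [FiniteDimensional K⟮t⟯ F] [Algebra.IsSeparable K⟮t⟯ F] :
    Module.Finite B (integralClosure B F) := by
  classical
  obtain ⟨u, huB, hu, hfin, hsep⟩ := exists_separating_mem B hfrac t ht
  obtain ⟨-, -, hFin⟩ := du_facts u hu
  obtain ⟨T, hT⟩ := hFin.fg_top
  have hle : Algebra.adjoin K {u} ≤ B := Algebra.adjoin_le (by simpa using huB)
  -- the `B`-span of `D` is spanned by the image of `T`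
  have hspan : ∀ z : integralClosure (Algebra.adjoin K {u}) F,
      (z : F) ∈ Submodule.span B ((T.image Subtype.val : Finset F) : Set F) := by
    intro z
    have hz : z ∈ Submodule.span (Algebra.adjoin K {u}) (T : Set _) := by
      rw [hT]
      exact Submodule.mem_top
    induction hz using Submodule.span_induction with
    | mem x hx =>
      exact Submodule.subset_span (by
        rw [Finset.coe_image]
        exact ⟨x, hx, rfl⟩)
    | zero => exact Submodule.zero_mem _
    | add x y _ _ hx hy => exact Submodule.add_mem _ hx hy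
    | smul c x _ hx =>
      have h1 : ((c • x : integralClosure (Algebra.adjoin K {u}) F) : F) =
          (⟨(c : F), hle c.2⟩ : B) • (x : F) := rfl
      rw [h1]
      exact Submodule.smul_mem _ _ hx
  have hfg : (Subalgebra.toSubmodule (integralClosure B F)).FG := by
    refine ⟨T.image Subtype.val, ?_⟩
    apply le_antisymm
    · rw [Submodule.span_le]
      intro x hx
      rw [Finset.coe_image] at hx
      obtain ⟨z, -, rfl⟩ := hx
      exact (integralClosure_eq_span B u huB hu _).2 (Submodule.subset_span z.2)
    · intro x hx
      have hx' : x ∈ Submodule.span B ((integralClosure (Algebra.adjoin K {u}) F : Set F)) :=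
        (integralClosure_eq_span B u huB hu x).1 hx
      refine (Submodule.span_le.2 ?_) hx'
      intro z hz
      exact hspan ⟨z, hz⟩
  have : Module.Finite B (Subalgebra.toSubmodule (integralClosure B F)) :=
    Module.Finite.iff_fg.2 hfg
  exact Module.Finite.equiv (Subalgebra.toSubmoduleEquiv (integralClosure B F))

/-- **ALG-FIN (ii).**  (`R := integralClosure B F` is a subring of `F` containing
`D = integralClosure K[u] F` (`u ∈ B` from `exists_separating_mem`), `D` is Dedekind with fraction
field `F` (`du_facts`): apply `overring_exists_uniformizer` to `R.toSubring`.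
`m ≠ ⊥`: otherwise `R` is a field, so `B` is a field (`isField_of_isIntegral_of_isField`), of
finite type over `K`, so finite over `K` (`finite_of_finite_type_of_isJacobsonRing`), so
`B = K` (`K` algebraically closed), so `F = K` by `hfrac`, contradicting `ht`.) -/
theorem fin_uniformizer (B : Subalgebra K F) (hfg : B.FG)
    (hfrac : ∀ x : F, ∃ a ∈ B, ∃ b ∈ B, b ≠ 0 ∧ x = a / b)
    (t : F) (ht : Transcendental K t) [FiniteDimensional K⟮t⟯ F] [Algebra.IsSeparable K⟮t⟯ F]
    (m : Ideal (integralClosure B F)) (hm : m.IsMaximal) :
    ∃ π ∈ m, π ≠ 0 ∧ ∀ x ∈ m, ∃ s, s ∉ m ∧ ∃ y, s * x = y * π := by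
  obtain ⟨u, huB, hu, hfin, hsep⟩ := exists_separating_mem B hfrac t ht
  obtain ⟨hD, hFr, -⟩ := du_facts u hu
  have hle : Algebra.adjoin K {u} ≤ B := Algebra.adjoin_le (by simpa using huB)
  have h0 : m ≠ ⊥ := by
    rintro rfl
    have hR : IsField (integralClosure B F) := Ring.isField_iff_maximal_bot.2 hm
    have hinj0 : Function.Injective (algebraMap B (integralClosure B F)) := by
      intro a b hab
      have h1 : ((algebraMap B (integralClosure B F) a : integralClosure B F) : F) =
          (algebraMap B (integralClosure B F) b : integralClosure B F) := by rw [hab]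
      exact Subtype.ext h1
    have hB : IsField B := isField_of_isIntegral_of_isField hinj0 hR
    have hmax : (⊥ : Ideal B).IsMaximal := Ring.isField_iff_maximal_bot.1 hB
    let := Ideal.Quotient.field (⊥ : Ideal B)
    have hft : Algebra.FiniteType K B := (Subalgebra.fg_iff_finiteType B).1 hfg
    have hft' : Algebra.FiniteType K (B ⧸ (⊥ : Ideal B)) :=
      Algebra.FiniteType.of_surjective (Ideal.Quotient.mkₐ K (⊥ : Ideal B))
        (Ideal.Quotient.mkₐ_surjective K _)
    have hfin' : Module.Finite K (B ⧸ (⊥ : Ideal B)) :=
      finite_of_finite_type_of_isJacobsonRing K (B ⧸ (⊥ : Ideal B))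
    have hinj : Function.Injective (Ideal.Quotient.mkₐ K (⊥ : Ideal B)) := by
      rw [injective_iff_map_eq_zero]
      intro a ha
      have : a ∈ (⊥ : Ideal B) := Ideal.Quotient.eq_zero_iff_mem.1 ha
      simpa using this
    have h1 : IsIntegral K (Ideal.Quotient.mkₐ K (⊥ : Ideal B) ⟨u, huB⟩) :=
      Algebra.IsIntegral.isIntegral _
    have h2 : IsIntegral K (⟨u, huB⟩ : B) := (isIntegral_algHom_iff _ hinj).1 h1
    have h3 : IsIntegral K u := h2.map B.val
    exact hu h3.isAlgebraic
  have hDR : ∀ d : integralClosure (Algebra.adjoin K {u}) F,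
      algebraMap (integralClosure (Algebra.adjoin K {u}) F) F d ∈
        (integralClosure B F).toSubring := by
    intro d
    have hd : IsIntegral (Algebra.adjoin K {u}) (d : F) := d.2
    let φ : Algebra.adjoin K {u} →+* B := (Subalgebra.inclusion hle).toRingHom
    exact IsIntegral.map_of_comp_eq φ (RingHom.id F) (by ext; rfl) hd
  exact overring_exists_uniformizer (D := integralClosure (Algebra.adjoin K {u}) F)
    (integralClosure B F).toSubring hDR m hm h0

end Fermat.Agent.S26.Curves
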