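/-
S26, block CURVES (architect helper26), leaf ALG-SM: a domain of finite type over an algebraically
closed field is smooth of relative dimension 1 near a maximal ideal which is locally principal.
Mathlib only.
-/
import Mathlib

set_option autoImplicit false

universe u

open Polynomial

namespace Fermat.Agent.S26.Curves

variable {K R : Type u} [Field K] [IsAlgClosed K] [CommRing R] [IsDomain R] [Algebra K R]
  [Algebra.FiniteType K R]

/-- `π` is transcendental over `K`: an algebraic element of the domain `R` lies in `K`
(its minimal polynomial splits), and `π ∈ m`, `π ≠ 0`. -/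
theorem sm_transcendental (m : Ideal R) (hm : m.IsMaximal) (π : R) (hπ : π ∈ m) (hπ0 : π ≠ 0) :
    Transcendental K π := by
  intro halg
  have hint : IsIntegral K π := halg.isIntegral
  have hdeg : (minpoly K π).degree = 1 :=
    IsAlgClosed.degree_eq_one_of_irreducible K (minpoly.irreducible hint)
  obtain ⟨c, rfl⟩ := minpoly.mem_range_of_degree_eq_one K π hdeg
  have hc : c ≠ 0 := by
    rintro rfl
    exact hπ0 (map_zero _)
  have hu : IsUnit (algebraMap K R c) := (IsUnit.mk0 c hc).map _
  exact hm.ne_top (Ideal.eq_top_of_isUnit_mem _ hπ hu)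

/-- Nullstellensatz: every element of `R` is congruent to a constant modulo `m`. -/
theorem sm_exists_const (m : Ideal R) (hm : m.IsMaximal) (x : R) :
    ∃ c : K, x - algebraMap K R c ∈ m := by
  let := Ideal.Quotient.field m
  have : Module.Finite K (R ⧸ m) := finite_of_finite_type_of_isJacobsonRing K (R ⧸ m)
  obtain ⟨c, hc⟩ := (IsAlgClosed.algebraMap_bijective_of_isIntegral (k := K) (K := R ⧸ m)).2
    (Ideal.Quotient.mk m x)
  refine ⟨c, ?_⟩
  rw [← Ideal.Quotient.eq, ← hc]
  rfl

/-- With the `K[X]`-algebra structure `X ↦ π`, `R` is etale over `K[X]` at `m`, hence on a basic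
open neighbourhood.
(Flat: torsion free over the PID `K[X]` since `aeval π` is injective and `R` is a domain.
`Algebra.FinitePresentation K[X] R`: finite type over a noetherian ring.
Unramified at `m`: `Algebra.isUnramifiedAt_iff_map_eq` with `p = m.comap = (X)`; the residue field of
`m` is `K` (Nullstellensatz: `R ⧸ m` is a field of finite type over `K`, so finite, so `= K`), so the
residue extension is separable; `p R_m = π R_m = m R_m` by `hm'`.
Then `Algebra.IsEtaleAt.of_isUnramifiedAt_of_flat`, `Algebra.exists_etale_of_isEtaleAt`.) -/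
theorem sm_etale (m : Ideal R) (hm : m.IsMaximal) (π : R) (hπ : π ∈ m) (hπ0 : π ≠ 0)
    (hm' : ∀ x ∈ m, ∃ s, s ∉ m ∧ ∃ y, s * x = y * π) :
    ∃ r, r ∉ m ∧
      ((algebraMap R (Localization.Away r)).comp (aeval (R := K) π).toRingHom).Etale := by
  have htr := sm_transcendental (K := K) m hm π hπ hπ0
  let : Algebra K[X] R := (aeval (R := K) π).toRingHom.toAlgebra
  have hmap : ∀ f : K[X], algebraMap K[X] R f = aeval π f := fun f => rfl
  have : IsScalarTower K K[X] R :=
    IsScalarTower.of_algebraMap_eq' (aeval (R := K) π).comp_algebraMap.symm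
  have hinj : Function.Injective (algebraMap K[X] R) := transcendental_iff_injective.1 htr
  have : FaithfulSMul K[X] R := (faithfulSMul_iff_algebraMap_injective _ _).2 hinj
  have : Module.IsTorsionFree K[X] R := inferInstance
  have : Module.Flat K[X] R := inferInstance
  have : Algebra.FiniteType K[X] R := Algebra.FiniteType.of_restrictScalars_finiteType K K[X] R
  have : Algebra.FinitePresentation K[X] R :=
    Algebra.FinitePresentation.of_finiteType.1 inferInstance
  have : m.IsPrime := hm.isPrime
  let p : Ideal K[X] := m.under K[X]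
  have : p.IsPrime := inferInstance
  have : m.LiesOver p := ⟨rfl⟩
  let := Localization.AtPrime.algebraOfLiesOver p m
  have : Algebra.IsUnramifiedAt K[X] m := by
    rw [Algebra.isUnramifiedAt_iff_map_eq K[X] p m]
    constructor
    · have hsurj : Function.Surjective (algebraMap p.ResidueField m.ResidueField) := by
        intro z
        obtain ⟨x, rfl⟩ := Ideal.algebraMap_residueField_surjective m z
        obtain ⟨c, hc⟩ := sm_exists_const (K := K) m hm x
        refine ⟨algebraMap K[X] p.ResidueField (C c), ?_⟩
        rw [← IsScalarTower.algebraMap_apply, IsScalarTower.algebraMap_apply K[X] R m.ResidueField,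
          hmap, aeval_C, eq_comm, ← sub_eq_zero, ← map_sub]
        exact (Ideal.algebraMap_residueField_eq_zero).2 hc
      exact ⟨fun z => by
        obtain ⟨y, rfl⟩ := hsurj z
        exact isSeparable_algebraMap y⟩
    · apply le_antisymm
      · rw [IsScalarTower.algebraMap_eq K[X] R (Localization.AtPrime m), ← Ideal.map_map,
          ← Localization.AtPrime.map_eq_maximalIdeal]
        exact Ideal.map_mono Ideal.map_comap_le
      · rw [← Localization.AtPrime.map_eq_maximalIdeal, Ideal.map_le_iff_le_comap]
        intro x hx
        obtain ⟨s, hs, y, hy⟩ := hm' x hx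
        rw [Ideal.mem_comap]
        have hu : IsUnit (algebraMap R (Localization.AtPrime m) s) :=
          IsLocalization.map_units (Localization.AtPrime m) (⟨s, hs⟩ : m.primeCompl)
        rw [← Ideal.unit_mul_mem_iff_mem _ hu, ← map_mul, hy, map_mul]
        apply Ideal.mul_mem_left
        have hX : (X : K[X]) ∈ p := by
          change algebraMap K[X] R X ∈ m
          rw [hmap, aeval_X]
          exact hπ
        have e : algebraMap R (Localization.AtPrime m) π =
            algebraMap K[X] (Localization.AtPrime m) X := by
          rw [IsScalarTower.algebraMap_apply K[X] R (Localization.AtPrime m), hmap, aeval_X]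
        rw [e]
        exact Ideal.mem_map_of_mem _ hX
  have : Algebra.IsEtaleAt K[X] m := Algebra.IsEtaleAt.of_isUnramifiedAt_of_flat m
  obtain ⟨r, hr, het⟩ := Algebra.exists_etale_of_isEtaleAt (R := K[X]) m
  refine ⟨r, hr, ?_⟩
  have e : (algebraMap R (Localization.Away r)).comp (aeval (R := K) π).toRingHom =
      algebraMap K[X] (Localization.Away r) :=
    (IsScalarTower.algebraMap_eq K[X] R (Localization.Away r)).symm
  rw [e, RingHom.etale_algebraMap]
  exact het

/-- The polynomial ring in one variable is standard smooth of relative dimension `1`. -/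
theorem sm_isStandardSmooth_polynomial (k : Type u) [Field k] :
    Algebra.IsStandardSmoothOfRelativeDimension 1 k k[X] := by
  have h1 : Algebra.IsStandardSmooth k (MvPolynomial PUnit.{1} k) := by
    refine Algebra.IsStandardSmooth.of_basis_kaehlerDifferential
      (KaehlerDifferential.mvPolynomialBasis k PUnit.{1}) ?_
    rintro _ ⟨i, rfl⟩
    exact ⟨MvPolynomial.X i, (KaehlerDifferential.mvPolynomialBasis_apply k PUnit.{1} i).symm⟩
  have h2 : Algebra.IsStandardSmoothOfRelativeDimension 1 k (MvPolynomial PUnit.{1} k) := by
    rw [Algebra.IsStandardSmoothOfRelativeDimension.iff_of_isStandardSmooth]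
    rw [rank_eq_card_basis (KaehlerDifferential.mvPolynomialBasis k PUnit.{1}), Fintype.card_punit,
      Nat.cast_one]
  exact Algebra.IsStandardSmoothOfRelativeDimension.of_algEquiv 1 (MvPolynomial.uniqueAlgEquiv k PUnit.{1})

/-- **ALG-SM.**  (`K → K[X]` is standard smooth of relative dimension 1 (transport the Mathlib
instance for `MvPolynomial (Fin 1) K` / `MvPolynomial Unit K` along `MvPolynomial.pUnitAlgEquiv`, or
build the presentation), `K[X] → R_r` is etale = standard smooth of relative dimension 0
(`Algebra.Etale.iff_isStandardSmoothOfRelativeDimension_zero`), compose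
(`RingHom.IsStandardSmoothOfRelativeDimension.comp`).) -/
theorem sm_main (m : Ideal R) (hm : m.IsMaximal) (π : R) (hπ : π ∈ m) (hπ0 : π ≠ 0)
    (hm' : ∀ x ∈ m, ∃ s, s ∉ m ∧ ∃ y, s * x = y * π) :
    ∃ r, r ∉ m ∧ Algebra.IsStandardSmoothOfRelativeDimension 1 K (Localization.Away r) := by
  obtain ⟨r, hr, het⟩ := sm_etale (K := K) m hm π hπ hπ0 hm'
  refine ⟨r, hr, ?_⟩
  have h0 := RingHom.etale_iff_isStandardSmoothOfRelativeDimension_zero.1 het
  have h1 : (algebraMap K K[X]).IsStandardSmoothOfRelativeDimension 1 :=
    (RingHom.isStandardSmoothOfRelativeDimension_algebraMap 1).2 (sm_isStandardSmooth_polynomial K)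
  have h := h0.comp h1
  have e : ((algebraMap R (Localization.Away r)).comp (aeval (R := K) π).toRingHom).comp
      (algebraMap K K[X]) = algebraMap K (Localization.Away r) := by
    ext c
    simp [IsScalarTower.algebraMap_apply K R (Localization.Away r)]
  rw [e, zero_add, RingHom.isStandardSmoothOfRelativeDimension_algebraMap] at h
  exact h

end Fermat.Agent.S26.Curves
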